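/-
Programme S33, A-half, piece (4b) of helper16's plan (helper79): **the base change of a
representation `ρ : G →* End_T V` along `T → B`** (`B` a commutative `T`-algebra; the case of interest is
`B = T ⧸ 𝔭`, `algebraMap = Ideal.Quotient.mk 𝔭`), Mathlib only.

* `rhoBC B ρ : G →* Module.End B (B ⊗[T] V)`, `g ↦ (ρ g).baseChange B` (`rhoBC_apply`, `rhoBC_tmul`);
* `bBC B b := Algebra.TensorProduct.basis B b`, `bBC_apply : bBC B b i = 1 ⊗ₜ b i`;
* `rhoBC_eigen` (hα-push) : `ρ g (b i) = α • b i → rhoBC B ρ g (bBC B b i) = algebraMap T B α • bBC B b i`;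
* `isUnit_map_sub_one` (hα1-push) : `IsUnit (α - 1) → IsUnit (algebraMap T B α - 1)`;
* `det_rhoBC` (hdet-push) : `det (rhoBC B ρ g) = algebraMap T B (det (ρ g))`; `trace_rhoBC`;
* `quad_rhoBC` (quad-pull) : `(rhoBC τ - algebraMap (ε τ) • 1) * (rhoBC σ - 1)
      = ((ρ τ - ε τ • 1) * (ρ σ - 1)).baseChange B`; `cubic_rhoBC`; `quad_rhoBC_eq_zero`;
* the same with `B = T ⧸ 𝔭` and `Ideal.Quotient.mk 𝔭` (`_quot` versions).
-/
import Mathlib

set_option autoImplicit false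
set_option linter.unusedSectionVars false

noncomputable section

namespace Fermat.Agent.S33P.RhoBC79

open TensorProduct

variable {T : Type*} [CommRing T] (B : Type*) [CommRing B] [Algebra T B]
variable {V : Type*} [AddCommGroup V] [Module T V]
variable {G : Type*} [Monoid G] (ρ : G →* Module.End T V)

/-- **The base change of a representation** along `T → B`. -/
def rhoBC : G →* Module.End B (B ⊗[T] V) where
  toFun g := (ρ g).baseChange B
  map_one' := by rw [map_one, LinearMap.baseChange_one]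
  map_mul' g h := by rw [map_mul, LinearMap.baseChange_mul]

theorem rhoBC_apply (g : G) : rhoBC B ρ g = (ρ g).baseChange B := rfl

theorem rhoBC_tmul (g : G) (c : B) (v : V) :
    rhoBC B ρ g (c ⊗ₜ[T] v) = c ⊗ₜ[T] ρ g v := by
  rw [rhoBC_apply, LinearMap.baseChange_tmul]

/-! ### bases -/

section Basis

variable {ι : Type*} (b : Module.Basis ι T V)

/-- the base-changed basis `1 ⊗ b i`. -/
def bBC : Module.Basis ι B (B ⊗[T] V) := Algebra.TensorProduct.basis B b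

theorem bBC_apply (i : ι) : bBC B b i = (1 : B) ⊗ₜ[T] b i := by
  unfold bBC
  rw [Algebra.TensorProduct.basis_apply]

/-- **hα-push**: an eigenvector of `ρ g` in the basis gives an eigenvector of `rhoBC g`. -/
theorem rhoBC_eigen {g : G} {i : ι} {α : T} (h : ρ g (b i) = α • b i) :
    rhoBC B ρ g (bBC B b i) = algebraMap T B α • bBC B b i := by
  rw [bBC_apply, rhoBC_tmul, h, TensorProduct.tmul_smul, algebraMap_smul]

end Basis

/-- **hα1-push**. -/
theorem isUnit_map_sub_one {α : T} (h : IsUnit (α - 1)) : IsUnit (algebraMap T B α - 1) := by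
  have := h.map (algebraMap T B)
  rwa [map_sub, map_one] at this

/-! ### determinant and trace -/

section Det

variable [Module.Free T V] [Module.Finite T V]

/-- **hdet-push**. -/
theorem det_rhoBC (g : G) :
    LinearMap.det (rhoBC B ρ g) = algebraMap T B (LinearMap.det (ρ g)) := by
  rw [rhoBC_apply, LinearMap.det_baseChange]

theorem trace_rhoBC (g : G) :
    LinearMap.trace B (B ⊗[T] V) (rhoBC B ρ g) = algebraMap T B (LinearMap.trace T V (ρ g)) := by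
  rw [rhoBC_apply, LinearMap.trace_baseChange]

end Det

/-! ### polynomial identities -/

theorem baseChange_sub_smul_one (f : Module.End T V) (c : T) :
    (f - c • (1 : Module.End T V)).baseChange B =
      f.baseChange B - algebraMap T B c • (1 : Module.End B (B ⊗[T] V)) := by
  rw [LinearMap.baseChange_sub, LinearMap.baseChange_smul, LinearMap.baseChange_one,
    algebraMap_smul]

theorem baseChange_sub_one (f : Module.End T V) :
    (f - (1 : Module.End T V)).baseChange B = f.baseChange B - 1 := by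
  rw [LinearMap.baseChange_sub, LinearMap.baseChange_one]

/-- **quad-pull**. -/
theorem quad_rhoBC (ε : G → T) (τ σ : G) :
    (rhoBC B ρ τ - algebraMap T B (ε τ) • (1 : Module.End B (B ⊗[T] V))) * (rhoBC B ρ σ - 1) =
      ((ρ τ - ε τ • (1 : Module.End T V)) * (ρ σ - 1)).baseChange B := by
  rw [LinearMap.baseChange_mul, baseChange_sub_smul_one, baseChange_sub_one, rhoBC_apply,
    rhoBC_apply]

/-- the cubic version. -/
theorem cubic_rhoBC (ε : G → T) (τ σ σ' : G) :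
    (rhoBC B ρ τ - algebraMap T B (ε τ) • (1 : Module.End B (B ⊗[T] V))) * (rhoBC B ρ σ - 1) *
        (rhoBC B ρ σ' - 1) =
      ((ρ τ - ε τ • (1 : Module.End T V)) * (ρ σ - 1) * (ρ σ' - 1)).baseChange B := by
  rw [LinearMap.baseChange_mul, LinearMap.baseChange_mul, baseChange_sub_smul_one,
    baseChange_sub_one, baseChange_sub_one, rhoBC_apply, rhoBC_apply, rhoBC_apply]

/-- pointwise form of quad-pull on pure tensors. -/
theorem quad_rhoBC_tmul (ε : G → T) (τ σ : G) (c : B) (v : V) :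
    ((rhoBC B ρ τ - algebraMap T B (ε τ) • (1 : Module.End B (B ⊗[T] V))) *
        (rhoBC B ρ σ - 1)) (c ⊗ₜ[T] v) =
      c ⊗ₜ[T] ((ρ τ - ε τ • (1 : Module.End T V)) ((ρ σ - 1) v)) := by
  rw [quad_rhoBC, LinearMap.baseChange_tmul, Module.End.mul_apply]

/-- if the quadratic identity holds on `V`, it holds on `B ⊗ V`. -/
theorem quad_rhoBC_eq_zero (ε : G → T) (τ σ : G)
    (h : (ρ τ - ε τ • (1 : Module.End T V)) * (ρ σ - 1) = 0) :
    (rhoBC B ρ τ - algebraMap T B (ε τ) • (1 : Module.End B (B ⊗[T] V))) * (rhoBC B ρ σ - 1) =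
      0 := by
  rw [quad_rhoBC, h, LinearMap.baseChange_zero]

/-- **quad-pull, converse direction in kernel form**: the quadratic identity on `B ⊗ V` says that
`1 ⊗ c(v) = 0` for the quadratic expression `c` on `V`. -/
theorem tmul_quad_eq_zero_of_rhoBC (ε : G → T) (τ σ : G)
    (h : (rhoBC B ρ τ - algebraMap T B (ε τ) • (1 : Module.End B (B ⊗[T] V))) *
      (rhoBC B ρ σ - 1) = 0) (v : V) :
    (1 : B) ⊗ₜ[T] ((ρ τ - ε τ • (1 : Module.End T V)) ((ρ σ - 1) v)) = 0 := by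
  rw [← quad_rhoBC_tmul, h, LinearMap.zero_apply]

/-! ### the quotient `B = T ⧸ 𝔭` -/

section Quot

variable (𝔭 : Ideal T)

theorem rhoBC_eigen_quot {ι : Type*} (b : Module.Basis ι T V) {g : G} {i : ι} {α : T}
    (h : ρ g (b i) = α • b i) :
    rhoBC (T ⧸ 𝔭) ρ g (bBC (T ⧸ 𝔭) b i) = Ideal.Quotient.mk 𝔭 α • bBC (T ⧸ 𝔭) b i :=
  rhoBC_eigen (T ⧸ 𝔭) ρ b h

theorem isUnit_mk_sub_one {α : T} (h : IsUnit (α - 1)) : IsUnit (Ideal.Quotient.mk 𝔭 α - 1) :=
  isUnit_map_sub_one (T ⧸ 𝔭) h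

theorem det_rhoBC_quot [Module.Free T V] [Module.Finite T V] (g : G) :
    LinearMap.det (rhoBC (T ⧸ 𝔭) ρ g) = Ideal.Quotient.mk 𝔭 (LinearMap.det (ρ g)) :=
  det_rhoBC (T ⧸ 𝔭) ρ g

theorem quad_rhoBC_quot (ε : G → T) (τ σ : G) :
    (rhoBC (T ⧸ 𝔭) ρ τ -
        Ideal.Quotient.mk 𝔭 (ε τ) • (1 : Module.End (T ⧸ 𝔭) ((T ⧸ 𝔭) ⊗[T] V))) *
      (rhoBC (T ⧸ 𝔭) ρ σ - 1) =
      ((ρ τ - ε τ • (1 : Module.End T V)) * (ρ σ - 1)).baseChange (T ⧸ 𝔭) :=
  quad_rhoBC (T ⧸ 𝔭) ρ ε τ σ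

theorem quotTensorEquivQuotSMul_one_tmul (v : V) :
    TensorProduct.quotTensorEquivQuotSMul V 𝔭 ((1 : T ⧸ 𝔭) ⊗ₜ[T] v) =
      Submodule.Quotient.mk v := by
  have h1 : (1 : T ⧸ 𝔭) = Ideal.Quotient.mk 𝔭 1 := rfl
  rw [h1, TensorProduct.quotTensorEquivQuotSMul_mk_tmul, one_smul]

/-- `1 ⊗ v = 0` in `(T ⧸ 𝔭) ⊗ V` iff `v ∈ 𝔭 V`. -/
theorem one_tmul_eq_zero_iff (v : V) :
    (1 : T ⧸ 𝔭) ⊗ₜ[T] v = 0 ↔ v ∈ 𝔭 • (⊤ : Submodule T V) := by
  rw [← (TensorProduct.quotTensorEquivQuotSMul V 𝔭).map_eq_zero_iff,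
    quotTensorEquivQuotSMul_one_tmul, Submodule.Quotient.mk_eq_zero]

/-- **quad-pull to `V`**: the quadratic identity on `Λ_𝔭 = (T ⧸ 𝔭) ⊗ V` gives `c(V) ⊆ 𝔭 V`. -/
theorem quad_mem_smul_top_of_rhoBC (ε : G → T) (τ σ : G)
    (h : (rhoBC (T ⧸ 𝔭) ρ τ -
        Ideal.Quotient.mk 𝔭 (ε τ) • (1 : Module.End (T ⧸ 𝔭) ((T ⧸ 𝔭) ⊗[T] V))) *
      (rhoBC (T ⧸ 𝔭) ρ σ - 1) = 0) (v : V) :
    (ρ τ - ε τ • (1 : Module.End T V)) ((ρ σ - 1) v) ∈ 𝔭 • (⊤ : Submodule T V) := by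
  rw [← one_tmul_eq_zero_iff]
  exact tmul_quad_eq_zero_of_rhoBC (T ⧸ 𝔭) ρ ε τ σ h v

end Quot

end Fermat.Agent.S33P.RhoBC79
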